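import Fermat.Agent.FF19.NS.Defs

/-!
# FF19 / NS-ABS : statements of the abstract part (architect helper45)

All statements are `Prop`s; each is proved in its own file `Fermat/Agent/FF19/NS/<Name>.lean` as
`theorem <name> … : Stmt_<Name>`, with the other `Stmt_*` it needs as explicit hypotheses.
Only `Mathlib` + `NS/Defs.lean` are needed.

PROOF OF `Stmt_Step` (hand-checked).  Let `(c, P)` be `NonSpec` with `e < g` points, `Z` a finite set of excluded
values, `U := k \ (bad values ∪ Z ∪ {c i})` (infinite).  Suppose that NO point `y` of a fibre over `U` works.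
`inj` and `fib` of the extended family hold automatically, so `ns` fails: for every such `y` (value `d`) there is a
NON-CONSTANT `h_y`, regular at all points `≠ y, P i`, with `(τ - c i) h_y ∈ P i`, `(τ - d) h_y ∈ y`.
Then `h_y ∉ y` (otherwise `ns` of `(c, P)` makes it constant).
Choose `m` distinct values `d_1 .. d_m ∈ U`, fibres `s_1 .. s_m` (pairwise disjoint, disjoint from the `P i`: a point
has only one value, nonzero constants are units), `Y = ⋃ s_j`, `#Y = m n`, `a = ∏ (τ - d_j) ≠ 0`.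
* (INDEP) `1, h_y (y ∈ Y)` are linearly independent (look at the pole at `y`).
* `V := span {a, a h_y}`, `dim V = m n + 1`.  For `b ∈ V`:
  (1) `b ∈ x` for every point `x` with `τ ∈ x`, `x ≠ P i`;  (2) `(τ - c i) b ∈ P i`;
  (3) `b τ^{-m} ∈ x` for every point `x` with `τ ∉ x` (`a τ^{-m} = ∏ (1 - d_j τ⁻¹)`).
* (DROP) `e` times: `V' ≤ V`, `dim V ≤ dim V' + e`, all `b ∈ V'` regular at the `P i` too.
* `PtAx.int` with `u = τ` and `u = τ⁻¹`: every `b ∈ V'` is integral over `k[τ]` and `b τ^{-m}` over `k[τ⁻¹]`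
  (if `τ⁻¹ ∈ x` then either `τ ∉ x`: (3), or `τ ∈ x`: `b ∈ x` and `τ⁻¹ ∈ x`).
* `UB` for a basis of `V'`: `dim V' + g ≤ m n + 1 ≤ dim V' + e`, so `g ≤ e`.  Contradiction.
-/

set_option autoImplicit false

namespace Fermat.Agent.FF19.NS

open Fermat.Agent.INJ (IsInt)

/-- **NS-1 (DROP)**.  `π ≠ 0` a uniformiser at `x`, `V` a finite dimensional space of functions with at most a
simple pole at `x`: the functions of `V` regular at `x` form a subspace of codimension `≤ 1`.
[`λ : V → k`, `b ↦` the value of `π b` at `x` (unique: nonzero constants are units of `x`), `V' = ker λ`;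
`x.valuation (π b) < 1 ⟹ b = π b / π ∈ x`.] -/
def Stmt_Drop : Prop :=
  ∀ (k κ : Type) [Field k] [Field κ] [Algebra k κ] (x : ValuationSubring κ) (π : κ), π ≠ 0 →
    (∀ c : k, algebraMap k κ c ∈ x) →
    (∀ f ∈ x, ∃ c : k, x.valuation (f - algebraMap k κ c) < 1) →
    (∀ f : κ, x.valuation f < 1 → f / π ∈ x) →
    ∀ V : Submodule k κ, Module.Finite k V → (∀ b ∈ V, π * b ∈ x) →
      ∃ V' : Submodule k κ, V' ≤ V ∧ (∀ b ∈ V', b ∈ x) ∧
        Module.finrank k V ≤ Module.finrank k V' + 1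

/-- **NS-2 (INDEP)**.  `1` and functions `h y` (`y ∈ Y`) with a pole at `y` and regular at the other points of
`Y` are linearly independent. -/
def Stmt_Indep : Prop :=
  ∀ (k κ : Type) [Field k] [Field κ] [Algebra k κ] (Y : Finset (ValuationSubring κ))
    (h : ValuationSubring κ → κ), (∀ y ∈ Y, ∀ c : k, algebraMap k κ c ∈ y) →
    (∀ y ∈ Y, h y ∉ y) → (∀ y ∈ Y, ∀ y' ∈ Y, y' ≠ y → h y' ∈ y) →
    LinearIndependent k (fun o : Option Y => o.elim (1 : κ) (fun y => h y.1))

/-- **NS-3 (STEP)**.  One more point can be added as long as `e < g`. -/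
def Stmt_Step : Prop :=
  ∀ (k κ : Type) [Field k] [Infinite k] [Field κ] [Algebra k κ] (Pts : Set (ValuationSubring κ))
    (τ : κ) (n g m : ℕ), PtAx k Pts → {c : k | ¬ ∃ s, UnrFib k Pts τ n c s}.Finite →
    UB k τ n g m →
    ∀ (e : ℕ) (c : Fin e → k) (P : Fin e → ValuationSubring κ), e < g → NonSpec k Pts τ n e c P →
    ∀ Z : Finset k, ∃ (c' : k) (P' : ValuationSubring κ), c' ∉ Z ∧
      NonSpec k Pts τ n (e + 1) (Fin.cons c' c : Fin (e + 1) → k)
        (Fin.cons P' P : Fin (e + 1) → ValuationSubring κ)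

/-- **NS-4 (ABS)** = output of the abstract part. -/
def Stmt_Abs : Prop :=
  ∀ (k κ : Type) [Field k] [Infinite k] [Field κ] [Algebra k κ] (Pts : Set (ValuationSubring κ))
    (τ : κ) (n g m : ℕ), PtAx k Pts → {c : k | ¬ ∃ s, UnrFib k Pts τ n c s}.Finite →
    UB k τ n g m →
    ∀ Z : Finset k, ∃ (c : Fin g → k) (P : Fin g → ValuationSubring κ),
      NonSpec k Pts τ n g c P ∧ ∀ i, c i ∉ Z

end Fermat.Agent.FF19.NS
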