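import Fermat.Agent.INJ.Defs

/-!
# FF19 / NS-ABS : non-special divisors on the special fibre (definitions; architect helper45)

`κ / k` a function field (`k` infinite, any characteristic), `τ : κ` a coordinate.
A *point* is a valuation subring `x` of `κ`; `Pts` is the set of all points (in the application
`Pts = {x | MR.Node.IsPt k x}` = all valuation subrings `≠ ⊤` containing `k`).
`f ∈ x` : `f` is regular at `x`;  `x.valuation f < 1` : `f` vanishes at `x`.
No `ord`, no divisors, no `H¹`, no adeles.

* `PtAx k Pts`            : the four facts on points which are used.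
* `UnrFib k Pts τ n c s`  : the fibre `τ = c` is unramified: it consists of the `n` points of `s`, and `τ - c`
                          is a uniformiser at each of them.
* `UB k τ n g m`        : `dim_k L(m (τ)_∞) ≤ m n + 1 - g`, with
                          `L(m (τ)_∞) = {w | w integral over k[τ], w τ^{-m} integral over k[1/τ]}`
                          (= OUTPUT OF NS-ARITH, `g` = genus of the GENERIC fibre).
* `NonSpec k Pts τ n g c P` : `P 0, …, P (g-1)` are points in unramified fibres with pairwise distinct values
                          `c i` and `L(∑ P i) = k`  (= OUTPUT OF NS-ABS, consumed by blocks A and L).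
-/

set_option autoImplicit false

namespace Fermat.Agent.FF19.NS

open Fermat.Agent.INJ (IsInt)

variable (k : Type*) {κ : Type*} [Field k] [Field κ] [Algebra k κ]

/-- the facts on the set `Pts` of points of `κ / k` used in NS-ABS. -/
structure PtAx (Pts : Set (ValuationSubring κ)) : Prop where
  /-- constants are regular -/
  const : ∀ x ∈ Pts, ∀ c : k, algebraMap k κ c ∈ x
  /-- the residue field is `k` -/
  res : ∀ x ∈ Pts, ∀ f ∈ x, ∃ c : k, x.valuation (f - algebraMap k κ c) < 1
  /-- a function regular everywhere is constant -/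
  glob : ∀ h : κ, (∀ x ∈ Pts, h ∈ x) → ∃ c : k, h = algebraMap k κ c
  /-- a function regular wherever `u` is regular is integral over `k[u]` -/
  int : ∀ u h : κ, (∀ x ∈ Pts, u ∈ x → h ∈ x) → IsInt k u h

/-- the fibre `τ = c` is unramified with `n` points. -/
structure UnrFib (Pts : Set (ValuationSubring κ)) (τ : κ) (n : ℕ) (c : k)
    (s : Finset (ValuationSubring κ)) : Prop where
  sub : ∀ x ∈ s, x ∈ Pts
  card : s.card = n
  mem_iff : ∀ x ∈ Pts, x ∈ s ↔ x.valuation (τ - algebraMap k κ c) < 1
  unif : ∀ x ∈ s, ∀ f : κ, x.valuation f < 1 → f / (τ - algebraMap k κ c) ∈ x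

/-- `dim_k L(m (τ)_∞) + g ≤ m n + 1`. -/
def UB (τ : κ) (n g m : ℕ) : Prop :=
  ∀ (r : ℕ) (w : Fin r → κ), (∀ i, IsInt k τ (w i) ∧ IsInt k τ⁻¹ (w i * τ⁻¹ ^ m)) →
    LinearIndependent k w → r + g ≤ m * n + 1

/-- `∑ P i` is a reduced non-special divisor supported in unramified fibres with distinct values. -/
structure NonSpec (Pts : Set (ValuationSubring κ)) (τ : κ) (n g : ℕ) (c : Fin g → k)
    (P : Fin g → ValuationSubring κ) : Prop where
  inj : Function.Injective c
  fib : ∀ i, ∃ s : Finset (ValuationSubring κ), UnrFib k Pts τ n (c i) s ∧ P i ∈ s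
  /-- `L(∑ P i) = k`: regular outside the `P i`, at most simple poles at the `P i` ⟹ constant. -/
  ns : ∀ h : κ, (∀ x ∈ Pts, (∀ i, x ≠ P i) → h ∈ x) →
    (∀ i, (τ - algebraMap k κ (c i)) * h ∈ P i) → ∃ a : k, h = algebraMap k κ a

end Fermat.Agent.FF19.NS
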