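import Fermat.Agent.FF19.NS.Interface

/-!
# FF19 / NS-ABS : NS-4 (ABS), induction on the number of points   (helper40)
-/

set_option autoImplicit false

namespace Fermat.Agent.FF19.NS

open Fermat.Agent.INJ (IsInt)

/-- **NS-4 (ABS)** -/
theorem abs (hS : Stmt_Step) : Stmt_Abs := by
  intro k κ _ _ _ _ Pts τ n g m hP hbad hUB Z
  have key : ∀ e : ℕ, e ≤ g → ∃ (c : Fin e → k) (P : Fin e → ValuationSubring κ),
      NonSpec k Pts τ n e c P ∧ ∀ i, c i ∉ Z := by
    intro e
    induction e with
    | zero =>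
      intro _
      refine ⟨Fin.elim0, Fin.elim0, ⟨fun i => i.elim0, fun i => i.elim0, fun h h1 _ => ?_⟩,
        fun i => i.elim0⟩
      exact hP.glob h (fun x hx => h1 x hx (fun i => i.elim0))
    | succ e ih =>
      intro he
      obtain ⟨c, P, hN, hZ⟩ := ih (by omega)
      obtain ⟨c', P', hc', hN'⟩ := hS k κ Pts τ n g m hP hbad hUB e c P (by omega) hN Z
      refine ⟨Fin.cons c' c, Fin.cons P' P, hN', fun i => ?_⟩
      refine Fin.cases ?_ (fun j => ?_) i
      · rw [Fin.cons_zero]
        exact hc'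
      · rw [Fin.cons_succ]
        exact hZ j
  exact key g le_rfl

end Fermat.Agent.FF19.NS
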