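import Fermat.Agent.FF19.NS.Interface

/-!
# FF19 / NS-1 (DROP) : `Stmt_Drop`  (task 1788, helper72)

`V' := {b ∈ V | x.valuation (π b) < 1}`.  If `V' ≠ V` pick `b₀ ∈ V \ V'`, with value `c₀ ≠ 0` of `π b₀` at `x`;
for `b ∈ V` with value `c` of `π b`, `b - (c / c₀) b₀ ∈ V'`.  So `V ≤ V' ⊔ span {b₀}`.
-/

set_option autoImplicit false

namespace Fermat.Agent.FF19.NS

theorem drop : Stmt_Drop := by
  intro k κ _ _ _ x π hπ hconst hres hunif V hfin hV
  have hc1 : ∀ c : k, x.valuation (algebraMap k κ c) ≤ 1 := fun c =>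
    (x.valuation_le_one_iff _).2 (hconst c)
  let W : Submodule k κ :=
    { carrier := {b | x.valuation (π * b) < 1}
      add_mem' := by
        intro a b ha hb
        simp only [Set.mem_ofPred_eq] at ha hb ⊢
        rw [mul_add]
        exact lt_of_le_of_lt (x.valuation.map_add _ _) (max_lt ha hb)
      zero_mem' := by simp
      smul_mem' := by
        intro c b hb
        simp only [Set.mem_ofPred_eq] at hb ⊢
        rw [Algebra.smul_def, mul_left_comm, map_mul]
        exact lt_of_le_of_lt (mul_le_of_le_one_left' (hc1 c)) hb }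
  have hW : ∀ b, b ∈ W ↔ x.valuation (π * b) < 1 := fun b => Iff.rfl
  refine ⟨V ⊓ W, inf_le_left, ?_, ?_⟩
  · intro b hb
    have h1 := hunif _ ((hW b).1 hb.2)
    rwa [mul_div_cancel_left₀ _ hπ] at h1
  · by_cases hVW : V ≤ W
    · rw [inf_eq_left.2 hVW]
      exact Nat.le_succ _
    · obtain ⟨b₀, hb₀V, hb₀W⟩ := Set.not_subset.1 hVW
      obtain ⟨c₀, hc₀⟩ := hres _ (hV b₀ hb₀V)
      have hc₀0 : c₀ ≠ 0 := by
        rintro rfl
        apply hb₀W
        rw [map_zero, sub_zero] at hc₀
        exact (hW b₀).2 hc₀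
      have hle : V ≤ (V ⊓ W) ⊔ Submodule.span k {b₀} := by
        intro b hb
        obtain ⟨c, hc⟩ := hres _ (hV b hb)
        have hmem : b - (c / c₀) • b₀ ∈ V ⊓ W := by
          refine ⟨V.sub_mem hb (V.smul_mem _ hb₀V), ?_⟩
          have hEq : π * (b - (c / c₀) • b₀) =
              (π * b - algebraMap k κ c) -
                algebraMap k κ (c / c₀) * (π * b₀ - algebraMap k κ c₀) := by
            have h0 : algebraMap k κ (c / c₀) * algebraMap k κ c₀ = algebraMap k κ c := by
              rw [← map_mul, div_mul_cancel₀ _ hc₀0]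
            rw [Algebra.smul_def, mul_sub (algebraMap k κ (c / c₀)), h0]
            ring
          rw [SetLike.mem_coe, hW, hEq]
          refine lt_of_le_of_lt (x.valuation.map_sub _ _) (max_lt hc ?_)
          rw [map_mul]
          exact lt_of_le_of_lt (mul_le_of_le_one_left' (hc1 _)) hc₀
        have : b = (b - (c / c₀) • b₀) + (c / c₀) • b₀ := by ring
        rw [this]
        exact Submodule.add_mem_sup hmem
          (Submodule.smul_mem _ _ (Submodule.mem_span_singleton_self b₀))
      have : Module.Finite k (V ⊓ W : Submodule k κ) :=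
        Submodule.finiteDimensional_of_le (inf_le_left : V ⊓ W ≤ V)
      calc Module.finrank k V
          ≤ Module.finrank k ((V ⊓ W) ⊔ Submodule.span k {b₀} : Submodule k κ) :=
            Submodule.finrank_mono hle
        _ ≤ Module.finrank k (V ⊓ W : Submodule k κ) +
              Module.finrank k (Submodule.span k {b₀}) :=
            Submodule.finrank_add_le_finrank_add_finrank _ _
        _ ≤ Module.finrank k (V ⊓ W : Submodule k κ) + 1 :=
            Nat.add_le_add_left
              ((finrank_span_le_card ({b₀} : Set κ)).trans (by simp)) _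

end Fermat.Agent.FF19.NS
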