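import Fermat.Agent.FF19.NS.Interface

/-!
# FF19 / NS-2 (INDEP) : `1` and functions with poles at distinct points are linearly independent.
-/

set_option autoImplicit false

namespace Fermat.Agent.FF19.NS

theorem indep : Stmt_Indep := by
  classical
  intro k κ _ _ _ Y h hc hpole hreg
  rw [Fintype.linearIndependent_iff]
  intro a ha
  rw [Fintype.sum_option] at ha
  simp only [Option.elim_none, Option.elim_some] at ha
  have key : ∀ y0 : Y, a (some y0) = 0 := by
    intro y0
    by_contra hne
    apply hpole y0.1 y0.2
    rw [← Finset.add_sum_erase Finset.univ _ (Finset.mem_univ y0)] at ha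
    have e1 : a (some y0) • h y0.1 =
        -(a none • (1 : κ) + ∑ y ∈ Finset.univ.erase y0, a (some y) • h y.1) := by
      linear_combination ha
    have hmem : a (some y0) • h y0.1 ∈ y0.1 := by
      rw [e1]
      refine neg_mem (add_mem ?_ (sum_mem fun y hy => ?_))
      · rw [Algebra.smul_def, mul_one]
        exact hc y0.1 y0.2 _
      · rw [Algebra.smul_def]
        refine mul_mem (hc y0.1 y0.2 _) (hreg y0.1 y0.2 y.1 y.2 ?_)
        intro hyy
        exact (Finset.mem_erase.1 hy).1 (Subtype.ext hyy)
    have e2 : h y0.1 = algebraMap k κ (a (some y0))⁻¹ * (a (some y0) • h y0.1) := by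
      rw [Algebra.smul_def, ← mul_assoc, ← map_mul, inv_mul_cancel₀ hne, map_one, one_mul]
    rw [e2]
    exact mul_mem (hc y0.1 y0.2 _) hmem
  intro o
  cases o with
  | some y => exact key y
  | none =>
    simp only [key, zero_smul, Finset.sum_const_zero, add_zero] at ha
    simpa using ha

end Fermat.Agent.FF19.NS
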