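import Fermat.Agent.FF19.NS.Interface

/-!
# FF19 / NS-ABS : NS-3 (STEP) (helper6).  One more point can be added as long as `e < g`.
-/

set_option autoImplicit false

namespace Fermat.Agent.FF19.NS

open Fermat.Agent.INJ (IsInt)

namespace Step

variable {k κ : Type} [Field k] [Field κ] [Algebra k κ]

/-- (a) a nonzero constant has valuation one. -/
lemma val_const {x : ValuationSubring κ} (hx : ∀ c : k, algebraMap k κ c ∈ x) {c : k}
    (hc : c ≠ 0) : x.valuation (algebraMap k κ c) = 1 := by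
  have h1 : x.valuation (algebraMap k κ c) ≤ 1 := (x.valuation_le_one_iff _).2 (hx c)
  have h2 : x.valuation (algebraMap k κ c⁻¹) ≤ 1 := (x.valuation_le_one_iff _).2 (hx c⁻¹)
  have h3 : x.valuation (algebraMap k κ c) * x.valuation (algebraMap k κ c⁻¹) = 1 := by
    rw [← map_mul, ← map_mul, mul_inv_cancel₀ hc, map_one, map_one]
  apply le_antisymm h1
  calc (1 : x.ValueGroup) = x.valuation (algebraMap k κ c) * x.valuation (algebraMap k κ c⁻¹) :=
        h3.symm
    _ ≤ x.valuation (algebraMap k κ c) * 1 := mul_le_mul' le_rfl h2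
    _ = _ := mul_one _

/-- (b) a point has at most one value. -/
lemma val_unique {x : ValuationSubring κ} (hx : ∀ c : k, algebraMap k κ c ∈ x) {τ : κ} {d d' : k}
    (h : x.valuation (τ - algebraMap k κ d) < 1) (h' : x.valuation (τ - algebraMap k κ d') < 1) :
    d = d' := by
  by_contra hne
  have h1 : x.valuation (algebraMap k κ (d' - d)) = 1 := val_const hx (sub_ne_zero.2 (Ne.symm hne))
  have h2 : algebraMap k κ (d' - d) = (τ - algebraMap k κ d) - (τ - algebraMap k κ d') := by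
    rw [map_sub]; ring
  rw [h2] at h1
  exact (Valuation.map_sub_lt _ h h').ne h1

/-- (c) -/
lemma mem_of_val {x : ValuationSubring κ} (hx : ∀ c : k, algebraMap k κ c ∈ x) {τ : κ} {d : k}
    (h : x.valuation (τ - algebraMap k κ d) < 1) : τ ∈ x := by
  have h1 : τ - algebraMap k κ d ∈ x := (x.valuation_le_one_iff _).1 h.le
  have h2 := add_mem h1 (hx d)
  rwa [sub_add_cancel] at h2

/-- the failure of `NonSpec` for the extended family gives a function with a pole at `y`. -/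
lemma exists_h {Pts : Set (ValuationSubring κ)} {τ : κ} {n e : ℕ} {c : Fin e → k}
    {P : Fin e → ValuationSubring κ} (hNS : NonSpec k Pts τ n e c P) {d : k}
    (hd : d ∉ Set.range c) {sd : Finset (ValuationSubring κ)} (hsd : UnrFib k Pts τ n d sd)
    {y : ValuationSubring κ} (hy : y ∈ sd)
    (hnot : ¬ NonSpec k Pts τ n (e + 1) (Fin.cons d c : Fin (e + 1) → k)
      (Fin.cons y P : Fin (e + 1) → ValuationSubring κ)) :
    ∃ h : κ, (∀ x ∈ Pts, x ≠ y → (∀ i, x ≠ P i) → h ∈ x) ∧ (τ - algebraMap k κ d) * h ∈ y ∧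
      (∀ i, (τ - algebraMap k κ (c i)) * h ∈ P i) ∧ h ∉ y := by
  by_contra hcon
  push Not at hcon
  apply hnot
  refine ⟨Fin.cons_injective_iff.2 ⟨hd, hNS.inj⟩, fun i => ?_, fun h h1 h2 => ?_⟩
  · refine Fin.cases ?_ (fun j => ?_) i
    · exact ⟨sd, hsd, hy⟩
    · exact hNS.fib j
  · have hA : ∀ x ∈ Pts, x ≠ y → (∀ i, x ≠ P i) → h ∈ x := fun x hx hxy hxP =>
      h1 x hx (fun i => Fin.cases hxy hxP i)
    have hB : (τ - algebraMap k κ d) * h ∈ y := h2 0
    have hC : ∀ i, (τ - algebraMap k κ (c i)) * h ∈ P i := fun i => h2 i.succ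
    have hy' : h ∈ y := hcon h hA hB hC
    refine hNS.ns h (fun x hx hxP => ?_) hC
    by_cases hxy : x = y
    · rw [hxy]; exact hy'
    · exact hA x hx hxy hxP

/-- the space of functions with the properties (1), (2), (3). -/
def Wsub (Pts : Set (ValuationSubring κ)) (τ : κ) (m e : ℕ) (c : Fin e → k)
    (P : Fin e → ValuationSubring κ) (hc : ∀ x ∈ Pts, ∀ a : k, algebraMap k κ a ∈ x)
    (hP : ∀ i, P i ∈ Pts) : Submodule k κ where
  carrier := {b | (∀ x ∈ Pts, τ ∈ x → (∀ i, x ≠ P i) → b ∈ x) ∧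
    (∀ i, (τ - algebraMap k κ (c i)) * b ∈ P i) ∧ (∀ x ∈ Pts, τ ∉ x → b * τ⁻¹ ^ m ∈ x)}
  add_mem' := by
    rintro a b ⟨a1, a2, a3⟩ ⟨b1, b2, b3⟩
    refine ⟨fun x hx h1 h2 => add_mem (a1 x hx h1 h2) (b1 x hx h1 h2), fun i => ?_,
      fun x hx h1 => ?_⟩
    · rw [mul_add]; exact add_mem (a2 i) (b2 i)
    · rw [add_mul]; exact add_mem (a3 x hx h1) (b3 x hx h1)
  zero_mem' := by
    refine ⟨fun x _ _ _ => zero_mem x, fun i => ?_, fun x _ _ => ?_⟩
    · rw [mul_zero]; exact zero_mem _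
    · rw [zero_mul]; exact zero_mem _
  smul_mem' := by
    rintro r b ⟨b1, b2, b3⟩
    refine ⟨fun x hx h1 h2 => ?_, fun i => ?_, fun x hx h1 => ?_⟩
    · rw [Algebra.smul_def]; exact mul_mem (hc x hx r) (b1 x hx h1 h2)
    · rw [Algebra.smul_def, mul_left_comm]; exact mul_mem (hc _ (hP i) r) (b2 i)
    · rw [Algebra.smul_def, mul_assoc]; exact mul_mem (hc x hx r) (b3 x hx h1)

/-- iterated (DROP). -/
lemma drop_iter (hD : Stmt_Drop) {Pts : Set (ValuationSubring κ)} (hP : PtAx k Pts) {τ : κ}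
    {n e : ℕ} {c : Fin e → k} {P : Fin e → ValuationSubring κ}
    (hfib : ∀ i, ∃ s : Finset (ValuationSubring κ), UnrFib k Pts τ n (c i) s ∧ P i ∈ s)
    (hne : ∀ i, τ - algebraMap k κ (c i) ≠ 0) (V : Submodule k κ) (hV : Module.Finite k V)
    (h2 : ∀ b ∈ V, ∀ i, (τ - algebraMap k κ (c i)) * b ∈ P i) (T : Finset (Fin e)) :
    ∃ V' : Submodule k κ, V' ≤ V ∧ (∀ b ∈ V', ∀ i ∈ T, b ∈ P i) ∧
      Module.finrank k V ≤ Module.finrank k V' + T.card := by
  classical
  induction T using Finset.induction_on with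
  | empty => exact ⟨V, le_rfl, fun _ _ i hi => absurd hi (Finset.notMem_empty i), by simp⟩
  | insert i T hi ih =>
    obtain ⟨V', hle, hreg, hrk⟩ := ih
    obtain ⟨s, hs, hmem⟩ := hfib i
    have hPi : P i ∈ Pts := hs.sub _ hmem
    have hfin : Module.Finite k V' := Submodule.finiteDimensional_of_le hle
    obtain ⟨V'', hle', hreg', hrk'⟩ := hD k κ (P i) (τ - algebraMap k κ (c i)) (hne i)
      (hP.const _ hPi) (hP.res _ hPi) (hs.unif _ hmem) V' hfin (fun b hb => h2 b (hle hb) i)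
    refine ⟨V'', hle'.trans hle, fun b hb j hj => ?_, ?_⟩
    · rcases Finset.mem_insert.1 hj with rfl | hj
      · exact hreg' b hb
      · exact hreg b (hle' hb) j hj
    · rw [Finset.card_insert_of_notMem hi]
      omega

end Step

open Step in
/-- **NS-3 (STEP)**. -/
theorem step (hD : Stmt_Drop) (hI : Stmt_Indep) : Stmt_Step := by
  intro k κ _ _ _ _ Pts τ n g m hP hbad hUB e c P heg hNS Z
  by_contra hcon
  push Not at hcon
  classical
  -- the good values
  have hBadfin : ({c : k | ¬ ∃ s, UnrFib k Pts τ n c s} ∪ ↑Z ∪ Set.range c ∪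
      {d : k | τ = algebraMap k κ d}).Finite :=
    ((hbad.union Z.finite_toSet).union (Set.finite_range c)).union
      (Set.Subsingleton.finite (fun a ha b hb => (algebraMap k κ).injective (ha.symm.trans hb)))
  have hU := hBadfin.infinite_compl
  obtain ⟨Dv, hDv, hcard⟩ := hU.exists_subset_card_eq m
  have hg1 : ∀ d ∈ Dv, ∃ s, UnrFib k Pts τ n d s := fun d hd => by
    by_contra h
    exact hDv hd (Or.inl (Or.inl (Or.inl h)))
  have hg2 : ∀ d ∈ Dv, d ∉ Z := fun d hd h => hDv hd (Or.inl (Or.inl (Or.inr h)))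
  have hg3 : ∀ d ∈ Dv, d ∉ Set.range c := fun d hd h => hDv hd (Or.inl (Or.inr h))
  have hg4 : ∀ d ∈ Dv, τ - algebraMap k κ d ≠ 0 := fun d hd h =>
    hDv hd (Or.inr (sub_eq_zero.1 h))
  choose! s hs using hg1
  -- facts on the `P i`
  have hPval : ∀ i, P i ∈ Pts ∧ (P i).valuation (τ - algebraMap k κ (c i)) < 1 := fun i => by
    obtain ⟨s', hs', hmem⟩ := hNS.fib i
    exact ⟨hs'.sub _ hmem, (hs'.mem_iff _ (hs'.sub _ hmem)).1 hmem⟩
  have hPPts : ∀ i, P i ∈ Pts := fun i => (hPval i).1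
  have hτP : ∀ i, τ ∈ P i := fun i => mem_of_val (hP.const _ (hPPts i)) (hPval i).2
  -- facts on the points of `Y`
  have hYval : ∀ d ∈ Dv, ∀ y ∈ s d, y ∈ Pts ∧ y.valuation (τ - algebraMap k κ d) < 1 :=
    fun d hd y hy => ⟨(hs d hd).sub _ hy, ((hs d hd).mem_iff _ ((hs d hd).sub _ hy)).1 hy⟩
  have hYP : ∀ d ∈ Dv, ∀ y ∈ s d, ∀ i, y ≠ P i := fun d hd y hy i h => by
    have h1 := (hYval d hd y hy).2
    have h2 := (hPval i).2
    rw [← h] at h2
    exact hg3 d hd ⟨i, (val_unique (hP.const _ (hYval d hd y hy).1) h1 h2).symm⟩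
  have hex : ∀ y ∈ Dv.biUnion s, ∃ h : κ, (∀ x ∈ Pts, x ≠ y → (∀ i, x ≠ P i) → h ∈ x) ∧
      (∃ d ∈ Dv, y ∈ s d ∧ (τ - algebraMap k κ d) * h ∈ y) ∧
      (∀ i, (τ - algebraMap k κ (c i)) * h ∈ P i) ∧ h ∉ y := fun y hy => by
    obtain ⟨d, hd, hyd⟩ := Finset.mem_biUnion.1 hy
    obtain ⟨h, h1, h2, h3, h4⟩ := exists_h hNS (hg3 d hd) (hs d hd) hyd (hcon d y (hg2 d hd))
    exact ⟨h, h1, ⟨d, hd, hyd, h2⟩, h3, h4⟩
  choose! h hh using hex
  have hYPts : ∀ y ∈ Dv.biUnion s, y ∈ Pts ∧ τ ∈ y ∧ ∀ i, y ≠ P i := fun y hy => by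
    obtain ⟨d, hd, hyd⟩ := Finset.mem_biUnion.1 hy
    exact ⟨(hYval d hd y hyd).1, mem_of_val (hP.const _ (hYval d hd y hyd).1) (hYval d hd y hyd).2,
      hYP d hd y hyd⟩
  -- the cardinality of `Y`
  have hYcard : (Dv.biUnion s).card = m * n := by
    rw [Finset.card_biUnion]
    · rw [Finset.sum_congr rfl (fun d hd => (hs d hd).card), Finset.sum_const, hcard, smul_eq_mul]
    · intro d hd d' hd' hne
      show Disjoint (s d) (s d')
      rw [Finset.disjoint_left]
      intro y hy hy'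
      exact hne (val_unique (hP.const _ (hYval d hd y hy).1) (hYval d hd y hy).2
        (hYval d' hd' y hy').2)
  -- the function `a`
  have ha0 : (∏ d ∈ Dv, (τ - algebraMap k κ d)) ≠ 0 := Finset.prod_ne_zero_iff.2 hg4
  have ha1 : ∀ x ∈ Pts, τ ∈ x → (∏ d ∈ Dv, (τ - algebraMap k κ d)) ∈ x := fun x hx hτ =>
    prod_mem (fun d _ => sub_mem hτ (hP.const x hx d))
  have ha3 : ∀ x ∈ Pts, τ ∉ x → (∏ d ∈ Dv, (τ - algebraMap k κ d)) * τ⁻¹ ^ m ∈ x := by
    intro x hx hτ
    have hτ0 : τ ≠ 0 := fun h0 => hτ (h0 ▸ zero_mem x)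
    have hinv : τ⁻¹ ∈ x := (x.mem_or_inv_mem τ).resolve_left hτ
    have h1 : (∏ d ∈ Dv, (τ - algebraMap k κ d)) * τ⁻¹ ^ m
        = ∏ d ∈ Dv, (1 - algebraMap k κ d * τ⁻¹) := by
      rw [← hcard, ← Finset.prod_const, ← Finset.prod_mul_distrib]
      refine Finset.prod_congr rfl (fun d _ => ?_)
      rw [sub_mul, mul_inv_cancel₀ hτ0]
    rw [h1]
    exact prod_mem (fun d _ => sub_mem (one_mem x) (mul_mem (hP.const x hx d) hinv))
  -- the independent family
  have hind := hI k κ (Dv.biUnion s) h (fun y hy => hP.const y (hYPts y hy).1)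
    (fun y hy => (hh y hy).2.2.2)
    (fun y hy y' hy' hne => (hh y' hy').1 y (hYPts y hy).1 (Ne.symm hne) (hYPts y hy).2.2)
  have hv := hind.map' (LinearMap.mulLeft k (∏ d ∈ Dv, (τ - algebraMap k κ d)))
    (LinearMap.ker_eq_bot_of_injective (fun u v huv => mul_left_cancel₀ ha0 huv))
  have hVrk := finrank_span_eq_card hv
  rw [Fintype.card_option, Fintype.card_coe, hYcard] at hVrk
  -- `V ≤ W`
  have hVW : Submodule.span k (Set.range (⇑(LinearMap.mulLeft k (∏ d ∈ Dv, (τ - algebraMap k κ d))) ∘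
      fun o : Option ↥(Dv.biUnion s) => o.elim (1 : κ) (fun y => h y.1)))
      ≤ Wsub Pts τ m e c P hP.const hPPts := by
    rw [Submodule.span_le]
    rintro _ ⟨o, rfl⟩
    rcases o with _ | ⟨y, hy⟩
    · show (∏ d ∈ Dv, (τ - algebraMap k κ d)) * 1 ∈ Wsub Pts τ m e c P hP.const hPPts
      rw [mul_one]
      refine ⟨fun x hx h1 _ => ha1 x hx h1, fun i => ?_, ha3⟩
      exact mul_mem (sub_mem (hτP i) (hP.const _ (hPPts i) _)) (ha1 _ (hPPts i) (hτP i))
    · show (∏ d ∈ Dv, (τ - algebraMap k κ d)) * h y ∈ Wsub Pts τ m e c P hP.const hPPts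
      obtain ⟨hA, ⟨d, hd, hyd, hB⟩, hC, -⟩ := hh y hy
      refine ⟨fun x hx h1 h2 => ?_, fun i => ?_, fun x hx h1 => ?_⟩
      · by_cases hxy : x = y
        · rw [hxy, ← Finset.mul_prod_erase Dv _ hd, mul_right_comm]
          exact mul_mem hB (prod_mem (fun d' _ =>
            sub_mem (hYPts y hy).2.1 (hP.const y (hYPts y hy).1 d')))
        · exact mul_mem (ha1 x hx h1) (hA x hx hxy h2)
      · rw [mul_left_comm]
        exact mul_mem (ha1 _ (hPPts i) (hτP i)) (hC i)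
      · rw [mul_right_comm]
        refine mul_mem (ha3 x hx h1) (hA x hx (fun hxy => h1 (hxy ▸ (hYPts y hy).2.1))
          (fun i hxi => h1 (hxi ▸ hτP i)))
  -- `τ - c i ≠ 0`
  have hne : ∀ i, τ - algebraMap k κ (c i) ≠ 0 := by
    intro i h0
    obtain ⟨d, hd⟩ := hU.nonempty
    have hd1 : ∃ s, UnrFib k Pts τ n d s := by
      by_contra h
      exact hd (Or.inl (Or.inl (Or.inl h)))
    have hd3 : d ∉ Set.range c := fun h => hd (Or.inl (Or.inr h))
    obtain ⟨sd, hsd⟩ := hd1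
    obtain ⟨s', hs', hmem⟩ := hNS.fib i
    have hn : 0 < n := by
      rw [← hs'.card]; exact Finset.card_pos.2 ⟨_, hmem⟩
    rw [← hsd.card] at hn
    obtain ⟨y, hy⟩ := Finset.card_pos.1 hn
    have hyP := hsd.sub _ hy
    have h1 := (hsd.mem_iff _ hyP).1 hy
    have h2 : y.valuation (τ - algebraMap k κ (c i)) < 1 := by
      rw [h0, map_zero]; exact zero_lt_one
    exact hd3 ⟨i, val_unique (hP.const _ hyP) h2 h1⟩
  -- (DROP)
  have hVfin : Module.Finite k (Submodule.span k (Set.range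
      (⇑(LinearMap.mulLeft k (∏ d ∈ Dv, (τ - algebraMap k κ d))) ∘
      fun o : Option ↥(Dv.biUnion s) => o.elim (1 : κ) (fun y => h y.1)))) :=
    FiniteDimensional.span_of_finite k (Set.finite_range _)
  obtain ⟨V', hle, hreg, hrk⟩ := drop_iter hD hP hNS.fib hne _ hVfin
    (fun b hb i => (hVW hb).2.1 i) Finset.univ
  rw [hVrk, Finset.card_univ, Fintype.card_fin] at hrk
  have hfin' : Module.Finite k V' := Submodule.finiteDimensional_of_le hle
  have hregx : ∀ b ∈ V', ∀ x ∈ Pts, τ ∈ x → b ∈ x := fun b hb x hx hτ => by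
    by_cases hxP : ∃ i, x = P i
    · obtain ⟨i, rfl⟩ := hxP
      exact hreg b hb i (Finset.mem_univ i)
    · push Not at hxP
      exact (hVW (hle hb)).1 x hx hτ hxP
  have hub := hUB (Module.finrank k V') (fun i => ((Module.finBasis k V' i : V') : κ))
    (fun i => ⟨hP.int τ _ (fun x hx hτ => hregx _ (Module.finBasis k V' i).2 x hx hτ),
      hP.int τ⁻¹ _ (fun x hx hinv => by
        by_cases hτ : τ ∈ x
        · exact mul_mem (hregx _ (Module.finBasis k V' i).2 x hx hτ) (pow_mem hinv m)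
        · exact (hVW (hle (Module.finBasis k V' i).2)).2.2 x hx hτ)⟩)
    ((Module.finBasis k V').linearIndependent.map' V'.subtype (Submodule.ker_subtype V'))
  omega

end Fermat.Agent.FF19.NS
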