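import Fermat.Agent.FF19.NS.Drop
import Fermat.Agent.FF19.NS.Indep
import Fermat.Agent.FF19.NS.Step
import Fermat.Agent.FF19.NS.Abs

/-!
# FF19 / NS-ABS : the abstract part, unconditionally (helper45)
-/

set_option autoImplicit false

namespace Fermat.Agent.FF19.NS

theorem all_Drop : Stmt_Drop := drop

theorem all_Indep : Stmt_Indep := indep

theorem all_Step : Stmt_Step := step all_Drop all_Indep

/-- **NS-ABS**, unconditionally. -/
theorem all_Abs : Stmt_Abs := abs all_Step

end Fermat.Agent.FF19.NS
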