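import Fermat.Agent.FF19.NS.Interface2
import Fermat.Agent.RED.EvBasic

/-!
# FF19 / NS-7 (helper46): all but finitely many fibres are unramified with `n` points
-/

set_option autoImplicit false

namespace Fermat.Agent.FF19.NS

open AlgebraicCurve IntermediateField
open Fermat.Agent.INJ (IsInt)
open Fermat.Agent.RED (Ev)
open Fermat.Agent.FF19.Kap (IsSepVar)

theorem FibPl_inj {k κ : Type} [Field k] [Field κ] [Algebra k κ] :
    Function.Injective (fun v : Place k κ => v.toValuationSubring) :=
  fun _ _ h => Place.ext h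

theorem fibPl (hU : Kap.Stmt_Unram) (hF : Kap.Stmt_Fibre) : Stmt_FibPl := by
  classical
  intro k κ _ _ _ _ τ h
  refine (hU k κ τ h).subset fun c hc => ?_
  by_contra hbad
  apply hc
  have hle : ∀ v : Place k κ, v.ord (τ - algebraMap k κ c) ≤ 1 := by
    intro v
    by_contra hv
    exact hbad ⟨v, by omega⟩
  obtain ⟨s', hcard, hs'⟩ := hF k κ τ h c hle
  have hne : τ - algebraMap k κ c ≠ 0 := by
    intro h0
    apply h.trans
    rw [sub_eq_zero.1 h0]
    exact isAlgebraic_algebraMap c
  have hev : ∀ v : Place k κ, Ev v τ c ↔ v.toValuationSubring.valuation (τ - algebraMap k κ c) < 1 :=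
    fun v => ValuationSubring.mem_nonunits_iff _
  refine ⟨s'.image (fun v : Place k κ => v.toValuationSubring), ?_, ?_, ?_, ?_⟩
  · intro x hx
    obtain ⟨v, -, rfl⟩ := Finset.mem_image.1 hx
    exact ⟨v, rfl⟩
  · rw [Finset.card_image_of_injective _ FibPl_inj, hcard]
  · rintro _ ⟨v, rfl⟩
    rw [← hev v, ← hs' v]
    constructor
    · intro hx
      obtain ⟨v', hv', he⟩ := Finset.mem_image.1 hx
      rwa [← FibPl_inj he]
    · intro hv
      exact Finset.mem_image.2 ⟨v, hv, rfl⟩
  · intro x hx f hf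
    obtain ⟨v, hv, rfl⟩ := Finset.mem_image.1 hx
    by_cases hf0 : f = 0
    · rw [hf0, zero_div]; exact zero_mem _
    · have h1 : 0 < v.ord (τ - algebraMap k κ c) := by
        rw [← Fermat.Agent.RED.ev_zero_iff_ord hne, Fermat.Agent.RED.ev_zero_iff]
        exact (hs' v).1 hv
      have h2 : 0 < v.ord f := by
        rw [← Fermat.Agent.RED.ev_zero_iff_ord hf0, Fermat.Agent.RED.ev_zero_iff]
        exact (ValuationSubring.mem_nonunits_iff _).2 hf
      refine S24.mem_of_ord_nonneg v (div_ne_zero hf0 hne) ?_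
      rw [div_eq_mul_inv, v.ord_mul hf0 (inv_ne_zero hne), v.ord_inv]
      have := hle v
      omega

end Fermat.Agent.FF19.NS
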