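import Fermat.Agent.FF19.NS.Interface
import Fermat.Agent.FF19.Kap.Interface
import Fermat.Agent.FF19.A.Defs

/-!
# FF19 / NS-ABS : the concrete part, in the language of places (architect helper45)

`k` algebraically closed (any characteristic), `κ / k` a field, `τ : κ` a separating variable (`Kap.IsSepVar k τ`).
The abstract part (`NS/Interface.lean`) is instantiated with `Pts := PlPts k κ` = the valuation subrings of the
places of `κ / k`.  The OUTPUT is `NonSpecPl τ n g c x` (`Place k κ`, `Place.ord`, `RED.Ev`, `A.sumPl`): it contains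
`A.Base.inj`, `A.Base.ns`, `A.Coord.unr` VERBATIM, unramifiedness at ALL places of the fibres `τ = c i`, and the
fibres as `Finset`s with `n` elements.

* `Stmt_PlOfPt` (K1')  : every valuation subring `≠ ⊤` of `κ` containing `k` is a place.
* `Stmt_PtAxPl`        : `PtAx k (PlPts k κ)`.
* `Stmt_FibPl`         : all but finitely many fibres are `UnrFib`.
* `Stmt_ToPl`          : `NonSpec k (PlPts k κ) τ n g c P → NonSpecPl τ n g c x`.
* `Stmt_NSPl`, `Stmt_NS2Pl` : existence of one / two (disjoint) non special families.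
Each `Stmt_X` is proved in `Fermat/Agent/FF19/NS/X.lean`.
-/

set_option autoImplicit false

namespace Fermat.Agent.FF19.NS

open AlgebraicCurve IntermediateField
open Fermat.Agent.INJ (IsInt)
open Fermat.Agent.RED (Ev)
open Fermat.Agent.FF19.Kap (IsSepVar)

/-- the points of `κ / k`: the valuation subrings of the places. -/
def PlPts (k κ : Type*) [Field k] [Field κ] [Algebra k κ] : Set (ValuationSubring κ) :=
  Set.range (fun v : Place k κ => v.toValuationSubring)

/-- **OUTPUT OF NS** : `∑ x i` is a reduced non-special divisor of degree `g`, supported in unramified fibres of `τ`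
with pairwise distinct values `c i`. -/
structure NonSpecPl {k κ : Type*} [Field k] [Field κ] [Algebra k κ] (τ : κ) (n g : ℕ)
    (c : Fin g → k) (x : Fin g → Place k κ) : Prop where
  cinj : Function.Injective c
  /-- `= A.Base.inj` -/
  xinj : Function.Injective x
  val : ∀ i, Ev (x i) τ (c i)
  /-- the whole fibre `τ = c i` is unramified (for `y = x i` this is `A.Coord.unr`) -/
  unr : ∀ (i : Fin g) (y : Place k κ), Ev y τ (c i) → y.ord (τ - algebraMap k κ (c i)) = 1
  /-- the fibre `τ = c i` has exactly `n` points -/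
  fib : ∀ i, ∃ s : Finset (Place k κ), s.card = n ∧ ∀ y : Place k κ, y ∈ s ↔ Ev y τ (c i)
  /-- `L(∑ x i) = k`  (`= A.Base.ns`) -/
  ns : ∀ h : κ, h ≠ 0 → (∀ y : Place k κ, 0 ≤ A.sumPl x y + y.ord h) →
    ∃ a : k, h = algebraMap k κ a

/-- **NS-5 (K1')**.  Every valuation subring `x ≠ ⊤` of `κ` containing `k` is (the ring of) a place.
[WLOG `τ ∈ x` (otherwise `τ⁻¹ ∈ x` and `τ⁻¹` is a separating variable: `Kap.Stmt_Shift`).  `R = S24.intRing k τ` is a
Dedekind domain with fraction field `κ` (`Kap.Fund_isDedekindDomain`, `Kap.Fund_isFractionRing`); `R ⊆ x` since `x` is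
integrally closed and contains `k[τ]`.  COPY the proof of `S24.exists_heightOneSpectrum_of_le` (`S24/PlacePrime.lean`
l.142) with `x` instead of `v.toValuationSubring`: `𝔭 = 𝔪_x ∩ R ≠ ⊥`, `v := Place.ofHeightOneSpectrum 𝔭`, `O_v ≤ x`
(`S24.exists_div_of_ord_nonneg`).  Finally `x ≤ O_v`: if `f ∈ x`, `v.ord f < 0` then every `h ≠ 0` is
`(h f⁻ᴺ) fᴺ` with `v.ord (h f⁻ᴺ) ≥ 0` for `N` large, so `h ∈ x` and `x = ⊤`.] -/
def Stmt_PlOfPt : Prop :=
  ∀ (k κ : Type) [Field k] [Field κ] [Algebra k κ] [IsAlgClosed k] (τ : κ), IsSepVar k τ →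
    ∀ x : ValuationSubring κ, (∀ c : k, algebraMap k κ c ∈ x) → x ≠ ⊤ →
      ∃ v : Place k κ, v.toValuationSubring = x

/-- **NS-6**.  The places satisfy the axioms `PtAx`.
[`const` : `Place.algebraMap_mem'`.  `res` : `Kap.Stmt_Basic` (2nd clause), `Ev` unfolds to `∈ nonunits`,
`ValuationSubring.mem_nonunits_iff` / `valuation_lt_one_iff`.
`int` : Mathlib `iInf_valuationSubring_superset` with `s = Set.range (algebraMap k κ) ∪ {u}` : `h` lies in every
valuation subring `V ⊇ s` (`V = ⊤` trivial, otherwise `V` is a place by (K1')), so `h` is integral over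
`Subring.closure s`, which is contained in `Algebra.adjoin k {u}` (`IsIntegral.tower_top` / `IsIntegral.map` /
`isIntegral_of_subring`-style monotonicity).
`glob` : `int` with `u = 0` : `h` is integral over `k[0]`, whose elements are constants
(`Algebra.adjoin_singleton_zero`-style: `Algebra.adjoin k {0} = ⊥`), so `h` is algebraic over `k`, so
`h ∈ range (algebraMap k κ)` (`IsAlgClosed.algebraMap_surjective_of_isIntegral'` /
`IsAlgClosed.algebraMap_bijective_of_isIntegral`-style, or the minimal polynomial splits).] -/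
def Stmt_PtAxPl : Prop :=
  ∀ (k κ : Type) [Field k] [Field κ] [Algebra k κ] [IsAlgClosed k] (τ : κ), IsSepVar k τ →
    PtAx k (PlPts k κ)

/-- **NS-7**.  All but finitely many fibres of `τ` are unramified with `n` points.
[The set is contained in `{c | ∃ v, 2 ≤ v.ord (τ - c)}` (`Kap.Stmt_Unram`).  For `c` outside: `Kap.Stmt_Fibre` gives
`s' : Finset (Place k κ)`; `s := s'.image Place.toValuationSubring` (injective: `Place.ext`).
`unif` : `ord (τ - c) = 1` (`≥ 1` since `Ev`, `τ - c ≠ 0` by transcendence), `ord f ≥ 1`,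
`S24.mem_of_ord_nonneg`, `Place.ord_mul`, `Place.ord_inv`.] -/
def Stmt_FibPl : Prop :=
  ∀ (k κ : Type) [Field k] [Field κ] [Algebra k κ] [IsAlgClosed k] (τ : κ), IsSepVar k τ →
    {c : k | ¬ ∃ s, UnrFib k (PlPts k κ) τ (Module.finrank k⟮τ⟯ κ) c s}.Finite

/-- **NS-8**.  The adapter from valuation subrings to places.
[`x i` : `P i ∈ s ⊆ PlPts` (`UnrFib.sub`).  `val` : `UnrFib.mem_iff`.  `xinj` : `x i = x j` gives
`c i - c j = (τ - c j) - (τ - c i) ∈ nonunits`, a constant, so `c i = c j` (nonzero constants are units).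
`unr` : `y ∈ s` by `mem_iff`; `ϖ` with `y.ord ϖ = 1` (`S24.exists_ord_eq_one`), `ϖ / (τ - c i) ∈ y` by `unif`, so
`ord (τ - c i) ≤ 1`; `≥ 1` since it is a nonzero nonunit (`S24.mem_maximalIdeal_iff_ord_pos`).
`fib` : `s.preimage Place.toValuationSubring` (injective by `Place.ext`), same cardinality since `s ⊆ PlPts`.
`ns` : `A.sumPl x y = 0` if `y ≠ x i` for all `i`, `A.sumPl x (x i) = 1` (`xinj`; `Finsupp.single_apply`,
`Finset.sum_eq_single`), `S24.mem_of_ord_nonneg`, `Place.ord_mul`.] -/
def Stmt_ToPl : Prop :=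
  ∀ (k κ : Type) [Field k] [Field κ] [Algebra k κ] (τ : κ), (∀ a : k, τ ≠ algebraMap k κ a) →
    ∀ (n g : ℕ) (c : Fin g → k) (P : Fin g → ValuationSubring κ),
    NonSpec k (PlPts k κ) τ n g c P →
    ∃ x : Fin g → Place k κ, (∀ i, (x i).toValuationSubring = P i) ∧ NonSpecPl τ n g c x

/-- **NS-9** : one non-special family, avoiding a finite set of values. -/
def Stmt_NSPl : Prop :=
  ∀ (k κ : Type) [Field k] [Field κ] [Algebra k κ] [IsAlgClosed k] (τ : κ), IsSepVar k τ →
    ∀ g m : ℕ, UB k τ (Module.finrank k⟮τ⟯ κ) g m →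
    ∀ Z : Finset k, ∃ (c : Fin g → k) (x : Fin g → Place k κ),
      NonSpecPl τ (Module.finrank k⟮τ⟯ κ) g c x ∧ ∀ i, c i ∉ Z

/-- **NS-10** : TWO non-special families (the two charts), all `2 g` values distinct, avoiding a finite set. -/
def Stmt_NS2Pl : Prop :=
  ∀ (k κ : Type) [Field k] [Field κ] [Algebra k κ] [IsAlgClosed k] (τ : κ), IsSepVar k τ →
    ∀ g m : ℕ, UB k τ (Module.finrank k⟮τ⟯ κ) g m →
    ∀ Z : Finset k, ∃ (c : Bool → Fin g → k) (x : Bool → Fin g → Place k κ),
      (∀ b, NonSpecPl τ (Module.finrank k⟮τ⟯ κ) g (c b) (x b)) ∧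
      Function.Injective (fun p : Bool × Fin g => c p.1 p.2) ∧
      Function.Injective (fun p : Bool × Fin g => x p.1 p.2) ∧ ∀ b i, c b i ∉ Z

end Fermat.Agent.FF19.NS
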