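import Fermat.Agent.FF19.NS.Interface2
import Fermat.Agent.FF19.Kap.Fund

/-!
# FF19 / NS-5 (K1') : a valuation subring `≠ ⊤` of `κ` containing `k` is a place
-/

set_option autoImplicit false

namespace Fermat.Agent.FF19.NS

open AlgebraicCurve IntermediateField IsDedekindDomain
open Fermat.Agent.S24
open Fermat.Agent.FF19.Kap (IsSepVar)

section Abstract

variable {K F : Type*} [Field K] [Field F] [Algebra K F]
variable {R : Type*} [CommRing R] [IsDedekindDomain R] [Algebra R F] [IsFractionRing R F]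
  [Algebra K R] [IsScalarTower K R F]

/-- A valuation subring `≠ ⊤` of the fraction field of a Dedekind domain `R`, containing `R`, is the
valuation ring of a height one prime. -/
theorem PlOfPt_exists_heightOneSpectrum (V : ValuationSubring F) (hV : V ≠ ⊤)
    (h : ∀ r : R, algebraMap R F r ∈ V) :
    ∃ P : HeightOneSpectrum R, (Place.ofHeightOneSpectrum (K := K) P).toValuationSubring = V := by
  classical
  let φ : R →+* V := (algebraMap R F).codRestrict V.toSubring h
  have hφ : ∀ r, ((φ r : V) : F) = algebraMap R F r := fun r => rfl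
  let 𝔭 : Ideal R := (IsLocalRing.maximalIdeal V).comap φ
  have hprime : 𝔭.IsPrime := Ideal.comap_isPrime φ _
  have hmem𝔭 : ∀ r, r ∈ 𝔭 ↔ ¬ IsUnit (φ r) := by
    intro r
    rw [Ideal.mem_comap, IsLocalRing.mem_maximalIdeal, mem_nonunits_iff]
  have hinv : ∀ d : R, d ∉ 𝔭 → (algebraMap R F d)⁻¹ ∈ V := by
    intro d hd
    rw [hmem𝔭, not_not] at hd
    obtain ⟨u, hu⟩ := hd
    have h3 : ((u : V) : F) * (((u⁻¹ : Vˣ) : V) : F) = 1 :=
      congrArg (Subtype.val) (u.mul_inv)
    rw [← hφ d, ← hu, inv_eq_of_mul_eq_one_right h3]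
    exact Subtype.property _
  have hne : 𝔭 ≠ ⊥ := by
    intro hbot
    apply hV
    refine SetLike.ext fun x => ⟨fun _ => ValuationSubring.mem_top x, fun _ => ?_⟩
    obtain ⟨a, b, hb, rfl⟩ := IsFractionRing.div_surjective (A := R) x
    have hb0 : b ≠ 0 := nonZeroDivisors.ne_zero hb
    have hb𝔭 : b ∉ 𝔭 := by
      rw [hbot, Ideal.mem_bot]
      exact hb0
    rw [div_eq_mul_inv]
    exact V.mul_mem _ _ (h a) (hinv b hb𝔭)
  let P : HeightOneSpectrum R := ⟨𝔭, hprime, hne⟩
  have hle : ∀ x : F, P.valuation F x ≤ 1 → x ∈ V := by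
    intro x hx
    obtain ⟨n, d, hnd⟩ := P.exists_primeCompl_mul_eq_of_integer x hx
    have hd𝔭 : (d : R) ∉ 𝔭 := d.2
    have hd0 : algebraMap R F (d : R) ≠ 0 := by
      intro h0
      apply hd𝔭
      have : (d : R) = 0 := (IsFractionRing.injective R F) (by rw [h0, map_zero])
      rw [this]
      exact 𝔭.zero_mem
    have hx' : x = algebraMap R F n * (algebraMap R F (d : R))⁻¹ := by
      rw [← hnd, mul_assoc, mul_inv_cancel₀ hd0, mul_one]
    rw [hx']
    exact V.mul_mem _ _ (h n) (hinv d hd𝔭)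
  refine ⟨P, ?_⟩
  rw [Place.ofHeightOneSpectrum_toValuationSubring]
  refine SetLike.ext fun x => ?_
  rw [Valuation.mem_valuationSubring_iff]
  refine ⟨hle x, fun hx => ?_⟩
  by_contra hgt
  rw [not_le] at hgt
  have hx0 : x ≠ 0 := by
    rintro rfl
    rw [map_zero] at hgt
    exact not_lt_of_ge zero_le hgt
  have hlt : P.valuation F x⁻¹ < 1 := by
    rw [map_inv₀]
    exact (inv_lt_one₀ (lt_trans zero_lt_one hgt)).2 hgt
  obtain ⟨n, d, hnd⟩ := P.exists_primeCompl_mul_eq_of_integer x⁻¹ hlt.le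
  have hd𝔭 : (d : R) ∉ 𝔭 := d.2
  have hn𝔭 : n ∈ 𝔭 := by
    have h1 : P.valuation F (algebraMap R F n) < 1 := by
      rw [← hnd, map_mul]
      exact mul_lt_one_of_lt_of_le hlt (P.valuation_le_one _)
    exact (P.valuation_lt_one_iff_mem n).1 h1
  apply hd𝔭
  have hmul : φ d = (⟨x, hx⟩ : V) * φ n := by
    ext
    show algebraMap R F (d : R) = x * algebraMap R F n
    rw [← hnd, ← mul_assoc, mul_inv_cancel₀ hx0, one_mul]
  show φ d ∈ IsLocalRing.maximalIdeal V
  rw [hmul]
  exact Ideal.mul_mem_left _ _ hn𝔭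

end Abstract

section Concrete

variable {k κ : Type*} [Field k] [Field κ] [Algebra k κ]

theorem PlOfPt_polyRing_le {τ : κ} (V : ValuationSubring κ) (hk : ∀ c : k, algebraMap k κ c ∈ V)
    (hτ : τ ∈ V) (a : polyRing k τ) : (a : κ) ∈ V := by
  let S : Subalgebra k κ := { V.toSubring with algebraMap_mem' := hk }
  have hle : polyRing k τ ≤ S := Algebra.adjoin_le (by
    intro y hy
    rw [Set.mem_singleton_iff] at hy
    rw [hy]; exact hτ)
  exact hle a.2

theorem PlOfPt_intRing_le {τ : κ} (V : ValuationSubring κ) (hk : ∀ c : k, algebraMap k κ c ∈ V)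
    (hτ : τ ∈ V) (b : intRing k τ) : (b : κ) ∈ V := by
  let φ : polyRing k τ →+* V :=
    (algebraMap (polyRing k τ) κ).codRestrict V.toSubring (PlOfPt_polyRing_le V hk hτ)
  have h1 : IsIntegral V (b : κ) :=
    IsIntegral.map_of_comp_eq φ (RingHom.id κ) rfl b.2
  obtain ⟨y, hy⟩ := (IsIntegrallyClosed.isIntegral_iff (R := V) (K := κ)).mp h1
  rw [← hy]
  exact y.2

theorem PlOfPt_of_mem {τ : κ} (h : IsSepVar k τ) (V : ValuationSubring κ)
    (hk : ∀ c : k, algebraMap k κ c ∈ V) (hV : V ≠ ⊤) (hτ : τ ∈ V) :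
    ∃ v : Place k κ, v.toValuationSubring = V := by
  have := Kap.Fund_isDedekindDomain h
  have := Kap.Fund_isFractionRing h
  obtain ⟨P, hP⟩ := PlOfPt_exists_heightOneSpectrum (K := k) (R := intRing k τ) V hV
    (fun b => PlOfPt_intRing_le V hk hτ b)
  exact ⟨_, hP⟩

end Concrete

theorem plOfPt (hS : Kap.Stmt_Shift) : Stmt_PlOfPt := by
  intro k κ _ _ _ _ τ h V hk hV
  rcases V.mem_or_inv_mem τ with hτ | hτ
  · exact PlOfPt_of_mem h V hk hV hτ
  · exact PlOfPt_of_mem (hS k κ τ h).2.1 V hk hV hτ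

end Fermat.Agent.FF19.NS
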