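import Fermat.Agent.FF19.NS.Interface2

/-!
# FF19 / NS-6 (helper46): the places of `κ / k` satisfy the axioms `PtAx`
-/

set_option autoImplicit false

namespace Fermat.Agent.FF19.NS

open AlgebraicCurve IntermediateField
open Fermat.Agent.INJ (IsInt)
open Fermat.Agent.RED (Ev)
open Fermat.Agent.FF19.Kap (IsSepVar)

theorem PtAxPl_int (hK : Stmt_PlOfPt) {k κ : Type} [Field k] [Field κ] [Algebra k κ]
    [IsAlgClosed k] {τ : κ} (h : IsSepVar k τ) (u f : κ)
    (hf : ∀ x ∈ PlPts k κ, u ∈ x → f ∈ x) : IsInt k u f := by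
  set s : Set κ := Set.range (algebraMap k κ) ∪ {u} with hs
  have h1 : f ∈ (⨅ V : {V : ValuationSubring κ // s ⊆ V.toSubring}, V.1.toSubring) := by
    rw [Subring.mem_iInf]
    rintro ⟨V, hV⟩
    show f ∈ V
    by_cases htop : V = ⊤
    · rw [htop]; trivial
    · obtain ⟨v, hv⟩ := hK k κ τ h V (fun c => hV (Or.inl ⟨c, rfl⟩)) htop
      exact hf V ⟨v, hv⟩ (hV (Or.inr rfl))
  rw [iInf_valuationSubring_superset] at h1
  have h2 : IsIntegral (Subring.closure s) f := h1
  obtain ⟨p, hp, hpf⟩ := h2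
  have hle : ∀ x ∈ Subring.closure s, x ∈ Algebra.adjoin k {u} := by
    intro x hx
    have h3 : Subring.closure s ≤ (Algebra.adjoin k {u}).toSubring := by
      rw [Subring.closure_le]
      rintro x (⟨c, rfl⟩ | hx)
      · exact (Algebra.adjoin k {u}).algebraMap_mem c
      · rw [Set.mem_singleton_iff.1 hx]
        exact Algebra.self_mem_adjoin_singleton k _
    exact h3 hx
  let φ : Subring.closure s →+* Algebra.adjoin k {u} :=
    (Subring.subtype _).codRestrict (Algebra.adjoin k {u}) (fun x => hle x.1 x.2)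
  refine ⟨p.map φ, hp.map _, ?_⟩
  rw [Polynomial.eval₂_map]
  exact hpf

theorem ptAxPl (hK : Stmt_PlOfPt) (hB : Kap.Stmt_Basic) : Stmt_PtAxPl := by
  intro k κ _ _ _ _ τ h
  refine ⟨?_, ?_, ?_, fun u f hf => PtAxPl_int hK h u f hf⟩
  · rintro _ ⟨v, rfl⟩ c
    exact v.algebraMap_mem' c
  · rintro _ ⟨v, rfl⟩ f hf
    obtain ⟨c, hc⟩ := (hB k κ τ h).2.1 v f hf
    exact ⟨c, (ValuationSubring.mem_nonunits_iff _).1 hc⟩
  · intro f hf
    have h1 : IsInt k 0 f := PtAxPl_int hK h 0 f (fun x hx _ => hf x hx)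
    have h2 : Algebra.IsIntegral k (Algebra.adjoin k {(0 : κ)}) :=
      Algebra.IsIntegral.adjoin (by
        intro x hx
        rw [Set.mem_singleton_iff.1 hx]
        exact isIntegral_zero)
    have h3 : IsIntegral k f := isIntegral_trans f h1
    have h4 : (minpoly k f).degree = 1 :=
      IsAlgClosed.degree_eq_one_of_irreducible k (minpoly.irreducible h3)
    obtain ⟨c, hc⟩ := minpoly.mem_range_of_degree_eq_one k f h4
    exact ⟨c, hc.symm⟩

end Fermat.Agent.FF19.NS
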