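import Fermat.Agent.FF19.NS.Interface2
import Fermat.Agent.RED.EvBasic
import Fermat.Agent.S24.PlaceBasic

/-!
# FF19 / NS : `Stmt_ToPl` (adapter from valuation subrings to places)
-/

set_option autoImplicit false

namespace Fermat.Agent.FF19.NS

open AlgebraicCurve IntermediateField
open Fermat.Agent.INJ (IsInt)
open Fermat.Agent.RED (Ev)

variable {k κ : Type*} [Field k] [Field κ] [Algebra k κ]

theorem ToPl_ev_iff (y : Place k κ) (f : κ) (a : k) :
    Ev y f a ↔ y.toValuationSubring.valuation (f - algebraMap k κ a) < 1 :=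
  ValuationSubring.mem_nonunits_iff _

theorem ToPl_lt_one_iff_ord (y : Place k κ) {f : κ} (hf : f ≠ 0) :
    y.toValuationSubring.valuation f < 1 ↔ 0 < y.ord f := by
  rw [← RED.ev_zero_iff_ord hf, ToPl_ev_iff, map_zero, sub_zero]

theorem ToPl_sumPl_apply {g : ℕ} (x : Fin g → Place k κ) (hx : Function.Injective x) (i : Fin g) :
    A.sumPl x (x i) = 1 := by
  classical
  unfold A.sumPl
  rw [Finsupp.finsetSum_apply, Finset.sum_eq_single i]
  · simp
  · intro j _ hj
    rw [Finsupp.single_apply, if_neg (fun h => hj (hx h))]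
  · intro h
    exact absurd (Finset.mem_univ _) h

theorem ToPl_sumPl_apply_of_ne {g : ℕ} (x : Fin g → Place k κ) (y : Place k κ)
    (hy : ∀ i, y ≠ x i) : A.sumPl x y = 0 := by
  classical
  unfold A.sumPl
  rw [Finsupp.finsetSum_apply]
  refine Finset.sum_eq_zero fun j _ => ?_
  rw [Finsupp.single_apply, if_neg (fun h => hy j h.symm)]

theorem toPl : Stmt_ToPl := by
  classical
  intro k κ _ _ _ τ hτ n g c P h
  choose s hs hPs using h.fib
  have hmemP : ∀ i, ∃ v : Place k κ, v.toValuationSubring = P i := fun i => (hs i).sub _ (hPs i)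
  choose x hx using hmemP
  have hne : ∀ a : k, τ - algebraMap k κ a ≠ 0 := fun a => sub_ne_zero.2 (hτ a)
  have hpl : ∀ y : Place k κ, y.toValuationSubring ∈ PlPts k κ := fun y => ⟨y, rfl⟩
  have hev : ∀ (i : Fin g) (y : Place k κ), Ev y τ (c i) ↔ y.toValuationSubring ∈ s i := by
    intro i y
    rw [ToPl_ev_iff, (hs i).mem_iff _ (hpl y)]
  have hval : ∀ i, Ev (x i) τ (c i) := by
    intro i
    rw [hev, hx]
    exact hPs i
  have hxinj : Function.Injective x := by
    intro i j hij
    have h1 := hval i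
    have h2 := hval j
    rw [← hij] at h2
    exact h.inj (RED.ev_unique h1 h2)
  have hunr : ∀ (i : Fin g) (y : Place k κ), Ev y τ (c i) →
      y.ord (τ - algebraMap k κ (c i)) = 1 := by
    intro i y hy
    have hys := (hev i y).1 hy
    obtain ⟨ϖ, hϖ⟩ := S24.exists_ord_eq_one y
    have hϖ0 : ϖ ≠ 0 := by
      rintro rfl
      rw [Place.ord_zero] at hϖ
      exact zero_ne_one hϖ
    have h1 : y.toValuationSubring.valuation ϖ < 1 := by
      rw [ToPl_lt_one_iff_ord y hϖ0, hϖ]
      exact zero_lt_one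
    have h2 := S24.ord_nonneg_of_mem y ((hs i).unif _ hys ϖ h1)
    rw [div_eq_mul_inv, Place.ord_mul _ hϖ0 (inv_ne_zero (hne _)), Place.ord_inv, hϖ] at h2
    have h3 : 0 < y.ord (τ - algebraMap k κ (c i)) := by
      rw [← ToPl_lt_one_iff_ord y (hne _), ← ToPl_ev_iff]
      exact hy
    omega
  refine ⟨x, hx, ⟨h.inj, hxinj, hval, hunr, ?_, ?_⟩⟩
  · intro i
    have hinj : Function.Injective (fun v : Place k κ => v.toValuationSubring) :=
      fun v w hvw => Place.ext hvw
    refine ⟨(s i).preimage (fun v : Place k κ => v.toValuationSubring) hinj.injOn, ?_, ?_⟩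
    · rw [← (hs i).card]
      refine Finset.card_preimage _ _ _ |>.trans ?_
      congr 1
      refine Finset.filter_true_of_mem ?_
      intro z hz
      exact (hs i).sub z hz
    · intro y
      rw [Finset.mem_preimage, hev]
  · intro f hf hf2
    refine h.ns f ?_ ?_
    · rintro z ⟨y, rfl⟩ hz
      have hy : ∀ i, y ≠ x i := by
        intro i hyi
        apply hz i
        show y.toValuationSubring = P i
        rw [hyi, hx]
      have h1 := hf2 y
      rw [ToPl_sumPl_apply_of_ne x y hy, zero_add] at h1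
      exact S24.mem_of_ord_nonneg y hf h1
    · intro i
      have h1 := hf2 (x i)
      rw [ToPl_sumPl_apply x hxinj i] at h1
      rw [← hx i]
      refine S24.mem_of_ord_nonneg (x i) (mul_ne_zero (hne _) hf) ?_
      rw [Place.ord_mul _ (hne _) hf, hunr i (x i) (hval i)]
      exact h1

end Fermat.Agent.FF19.NS
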